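/-
Programme MAZ, brick F-G0 (helper56): **descent of a place-reduction map along a finite cover**.

Abstract setting.  `F ⊆ F'` function fields over `K` (generic fibre, two levels), `G ⊆ G'` function
fields over `k` (special fibre, the same two levels), `r' : Place K F' → Place k G'` a reduction
map at the upper level which is compatible with the divisors of a family `I ⊆ F × G` of
"integral pairs" `(y, ȳ)` (`y` at the LOWER level, `ȳ` its reduction).  If

* `∑_{w ∣ v} e(w) = d` on both sides (fundamental identity, residue degrees one),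
* all places of `F` have degree one and `Pic⁰ F` is `d`-divisible,
* the principal divisors of `F` are generated by the divisors of the `y`'s,
* the image of `r'` restricted to `G` is not contained in a finite set,

then `r'` descends: there is `r : Place K F → Place k G` with `(r' w)|_G = r (w|_F)` and
`r_* div(y) = div(ȳ)` for every integral pair.

Mathlib + Prelude (`Def_AlgebraicCurve_DivisorPushPull`) only.
-/
import Mathlib
import Fermat.Prelude.Def_AlgebraicCurve_DivisorPushPull

set_option autoImplicit false
set_option linter.unusedSectionVars false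

open AlgebraicCurve

noncomputable section

namespace Fermat.Agent.MAZ.G0Red56.Descent

/-! ### Combinatorics of effective divisors of fixed mass -/

section Mass

variable {α : Type*}

/-- total mass of a finitely supported integer function -/
def mass : (α →₀ ℤ) →+ ℤ := Finsupp.liftAddHom fun _ => AddMonoidHom.id ℤ

@[simp] theorem mass_single (a : α) (n : ℤ) : mass (Finsupp.single a n) = n := by
  simp [mass]

theorem mass_eq_sum (f : α →₀ ℤ) : mass f = ∑ a ∈ f.support, f a := by
  simp [mass, Finsupp.sum]

/-- a nonnegative function of mass zero vanishes -/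
theorem eq_zero_of_nonneg_of_mass_eq_zero {f : α →₀ ℤ} (h0 : ∀ a, 0 ≤ f a) (hm : mass f = 0) :
    f = 0 := by
  ext a
  rw [mass_eq_sum] at hm
  by_cases ha : a ∈ f.support
  · have := (Finset.sum_eq_zero_iff_of_nonneg (fun b _ => h0 b)).mp hm a ha
    simpa using this
  · simpa using ha

/-- `f ≤ g` pointwise with equal masses implies `f = g` -/
theorem eq_of_le_of_mass_eq {f g : α →₀ ℤ} (hle : ∀ a, f a ≤ g a) (hm : mass f = mass g) :
    f = g := by
  have h : g - f = 0 := by
    apply eq_zero_of_nonneg_of_mass_eq_zero
    · intro a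
      rw [Finsupp.sub_apply]
      linarith [hle a]
    · rw [map_sub, hm, sub_self]
  exact (sub_eq_zero.mp h).symm

/-- **The dichotomy.**  A family of effective divisors of mass `d > 0`, pairwise congruent modulo
`d`, either consists of multiples `d · [Q]` of single points or is constant. -/
theorem single_or_const {ι : Type*} {d : ℤ} (hd : 0 < d) (ρ : ι → (α →₀ ℤ))
    (hnn : ∀ i a, 0 ≤ ρ i a) (hmass : ∀ i, mass (ρ i) = d)
    (hcong : ∀ i j a, d ∣ ρ i a - ρ j a) :
    (∀ i, ∃ a, ρ i = Finsupp.single a d) ∨ ∃ c, ∀ i, ρ i = c := by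
  classical
  by_cases hne : Nonempty ι
  swap
  · left
    intro i
    exact absurd ⟨i⟩ hne
  obtain ⟨i₀⟩ := hne
  by_cases hbig : ∃ a₀, d ≤ ρ i₀ a₀
  · -- case 1: all values of every `ρ i` are multiples of `d`
    left
    obtain ⟨a₀, ha₀⟩ := hbig
    have h0 : ρ i₀ = Finsupp.single a₀ d := by
      symm
      apply eq_of_le_of_mass_eq
      · intro a
        rw [Finsupp.single_apply]
        split_ifs with h
        · subst h; exact ha₀
        · exact hnn i₀ a
      · rw [mass_single, hmass]
    have hdvd : ∀ i a, d ∣ ρ i a := by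
      intro i a
      have h1 := hcong i i₀ a
      have h2 : d ∣ ρ i₀ a := by
        rw [h0, Finsupp.single_apply]
        split_ifs
        · exact dvd_refl d
        · exact dvd_zero d
      have := dvd_add h1 h2
      rwa [sub_add_cancel] at this
    intro i
    -- some value is nonzero
    have hex : ∃ a, ρ i a ≠ 0 := by
      by_contra hall
      push Not at hall
      have : ρ i = 0 := by ext a; simpa using hall a
      have hm := hmass i
      rw [this, map_zero] at hm
      omega
    obtain ⟨a, ha⟩ := hex
    refine ⟨a, ?_⟩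
    symm
    apply eq_of_le_of_mass_eq
    · intro b
      rw [Finsupp.single_apply]
      split_ifs with h
      · subst h
        obtain ⟨m, hm⟩ := hdvd i a
        have hpos : 0 < ρ i a := lt_of_le_of_ne (hnn i a) (Ne.symm ha)
        rw [hm] at hpos ⊢
        have hm1 : 0 < m := by
          by_contra hle
          push Not at hle
          have : d * m ≤ 0 := mul_nonpos_of_nonneg_of_nonpos hd.le hle
          omega
        nlinarith
      · exact hnn i b
    · rw [mass_single, hmass]
  · -- case 2: all values of `ρ i₀` are `< d`; then every `ρ i` dominates `ρ i₀`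
    right
    push Not at hbig
    refine ⟨ρ i₀, fun i => ?_⟩
    symm
    apply eq_of_le_of_mass_eq
    · intro a
      obtain ⟨m, hm⟩ := hcong i i₀ a
      have h1 := hnn i a
      have h2 := hnn i₀ a
      have h3 := hbig a
      by_contra hlt
      push Not at hlt
      have hm0 : m < 0 := by
        by_contra hge
        push Not at hge
        have : 0 ≤ d * m := mul_nonneg hd.le hge
        omega
      have : d * m ≤ -d := by nlinarith
      omega
    · rw [hmass, hmass]

end Mass

/-! ### The descent theorem -/

section Main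

variable {K F F' : Type*} [Field K] [Field F] [Field F']
  [Algebra K F] [Algebra K F'] [Algebra F F'] [IsScalarTower K F F']
  [Algebra.IsIntegral F F'] [HasPrincipalDivisors K F']
variable {k G G' : Type*} [Field k] [Field G] [Field G']
  [Algebra k G] [Algebra k G'] [Algebra G G'] [IsScalarTower k G G']
  [Algebra.IsIntegral G G']

variable (r' : Place K F' → Place k G')

/-- the upper reduction followed by restriction to the lower special field -/
def res' (w : Place K F') : Place k G := (r' w).restrict G

/-- the correspondence `D ↦ (res ∘ r')_* (π^* D)` on divisors -/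
def rho : Divisor K F →+ Divisor k G :=
  (Finsupp.mapDomain.addMonoidHom (res' (G := G) r')).comp (Divisor.pullback F')

theorem rho_apply (D : Divisor K F) :
    rho (G := G) r' D = Finsupp.mapDomain (res' (G := G) r') (Divisor.pullback F' D) := rfl

theorem rho_single (v : Place K F) (n : ℤ) :
    rho (G := G) r' (Finsupp.single v n) =
      ∑ w ∈ v.fiber F', Finsupp.single (res' (G := G) r' w) (n * (w.ramificationIndex F : ℤ)) := by
  rw [rho_apply, Divisor.pullback_single, Finsupp.mapDomain_finsetSum]
  exact Finset.sum_congr rfl fun w _ => Finsupp.mapDomain_single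

theorem rho_single_apply [DecidableEq (Place k G)] (v : Place K F) (n : ℤ) (Q : Place k G) :
    rho (G := G) r' (Finsupp.single v n) Q =
      ∑ w ∈ v.fiber F', if res' (G := G) r' w = Q then n * (w.ramificationIndex F : ℤ) else 0 := by
  rw [rho_single, Finsupp.finsetSum_apply]
  refine Finset.sum_congr rfl fun w _ => ?_
  rw [Finsupp.single_apply]

theorem rho_single_one_nonneg (v : Place K F) (Q : Place k G) :
    0 ≤ rho (G := G) r' (Finsupp.single v 1) Q := by
  classical
  rw [rho_single_apply]
  refine Finset.sum_nonneg fun w _ => ?_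
  split_ifs
  · rw [one_mul]; exact Int.natCast_nonneg _
  · exact le_refl 0

theorem mass_rho_single_one (v : Place K F) :
    mass (rho (G := G) r' (Finsupp.single v 1)) = ∑ w ∈ v.fiber F', (w.ramificationIndex F : ℤ) := by
  rw [rho_single, map_sum]
  refine Finset.sum_congr rfl fun w _ => ?_
  rw [mass_single, one_mul]

/-- the reduction of `w` lies in the support of `ρ [w|_F]` -/
theorem rho_single_one_pos (w : Place K F') :
    0 < rho (G := G) r' (Finsupp.single (w.restrict F) 1) (res' (G := G) r' w) := by
  classical
  rw [rho_single_apply]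
  have hw : w ∈ (w.restrict F).fiber F' := Place.restrict_mem_fiber w
  have hle : (if res' (G := G) r' w = res' (G := G) r' w then
      (1 : ℤ) * (w.ramificationIndex F : ℤ) else 0) ≤
      ∑ w' ∈ (w.restrict F).fiber F', if res' (G := G) r' w' = res' (G := G) r' w then
        (1 : ℤ) * (w'.ramificationIndex F : ℤ) else 0 :=
    Finset.single_le_sum (f := fun w' => if res' (G := G) r' w' = res' (G := G) r' w then
        (1 : ℤ) * (w'.ramificationIndex F : ℤ) else 0)
      (fun w' _ => by
        split_ifs
        · rw [one_mul]; exact Int.natCast_nonneg _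
        · exact le_refl 0) hw
  rw [if_pos rfl, one_mul] at hle
  have hpos : (0 : ℤ) < (w.ramificationIndex F : ℤ) := by
    exact_mod_cast w.ramificationIndex_pos (F := F)
  omega

/-- `mapDomain` along `restrict` evaluated at a place with finite fibre -/
theorem mapDomain_restrict_apply (E' : Divisor k G') (Q : Place k G)
    (hfin : {Q' : Place k G' | Q'.restrict G = Q}.Finite) :
    Finsupp.mapDomain (fun Q' : Place k G' => Q'.restrict G) E' Q = ∑ Q' ∈ hfin.toFinset, E' Q' := by
  classical
  rw [Finsupp.mapDomain, Finsupp.sum_apply, Finsupp.sum]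
  simp_rw [Finsupp.single_apply]
  rw [← Finset.sum_filter]
  have h2 : ∑ Q' ∈ hfin.toFinset, E' Q' = ∑ Q' ∈ hfin.toFinset.filter (fun Q' => Q' ∈ E'.support), E' Q' := by
    rw [Finset.sum_filter]
    refine Finset.sum_congr rfl fun Q' _ => ?_
    split_ifs with h
    · rfl
    · simpa using h
  rw [h2]
  refine Finset.sum_congr ?_ fun _ _ => rfl
  ext Q'
  simp only [Finset.mem_filter, Set.Finite.mem_toFinset, Set.mem_ofPred_eq]
  tauto

variable {r'} in
/-- **Key identity**: `ρ (div y) = d · div ȳ` for an integral pair. -/
theorem rho_eq_of_pair {d : ℕ}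
    (hfibG : ∀ Q : Place k G, {Q' : Place k G' | Q'.restrict G = Q}.Finite)
    (hsumG : ∀ Q : Place k G, ∑ Q' ∈ (hfibG Q).toFinset, (Q'.ramificationIndex G : ℤ) = d)
    {y : F} {yb : G}
    (hcompat : ∀ D' : Divisor K F', (∀ w, D' w = w.ord (algebraMap F F' y)) →
      ∀ Q', Finsupp.mapDomain r' D' Q' = Q'.ord (algebraMap G G' yb))
    {D : Divisor K F} (hD : ∀ v, D v = v.ord y) (Q : Place k G) :
    rho (G := G) r' D Q = d * Q.ord yb := by
  have h1 : rho (G := G) r' D =
      Finsupp.mapDomain (fun Q' : Place k G' => Q'.restrict G)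
        (Finsupp.mapDomain r' (Divisor.pullback F' D)) := by
    rw [rho_apply, ← Finsupp.mapDomain_comp]
    rfl
  rw [h1, mapDomain_restrict_apply _ Q (hfibG Q)]
  have h2 : ∀ Q' ∈ (hfibG Q).toFinset,
      Finsupp.mapDomain r' (Divisor.pullback F' D) Q' = (Q'.ramificationIndex G : ℤ) * Q.ord yb := by
    intro Q' hQ'
    rw [hcompat _ (fun w => Divisor.pullback_apply_eq_ord hD w) Q', Q'.ord_restrict yb]
    have : Q'.restrict G = Q := by simpa using hQ'
    rw [this]
  rw [Finset.sum_congr rfl h2, ← Finset.sum_mul, hsumG]

variable {r'} in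
/-- **Descent of the reduction map.** -/
theorem exists_descent {d : ℕ} (hd : 0 < d)
    (hsumF : ∀ v : Place K F, ∑ w ∈ v.fiber F', (w.ramificationIndex F : ℤ) = d)
    (hfibG : ∀ Q : Place k G, {Q' : Place k G' | Q'.restrict G = Q}.Finite)
    (hsumG : ∀ Q : Place k G, ∑ Q' ∈ (hfibG Q).toFinset, (Q'.ramificationIndex G : ℤ) = d)
    (hdeg : ∀ v : Place K F, v.deg = 1)
    (I : Set (F × G))
    (hI : ∀ p ∈ I, ∀ D' : Divisor K F', (∀ w, D' w = w.ord (algebraMap F F' p.1)) →
      ∀ Q', Finsupp.mapDomain r' D' Q' = Q'.ord (algebraMap G G' p.2))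
    (hgen : Divisor.principal (K := K) (F := F) ≤
      AddSubgroup.closure {D | ∃ p ∈ I, ∀ v : Place K F, D v = v.ord p.1})
    (hdiv : ∀ x : Pic0 K F, ∃ z : Pic0 K F, d • z = x)
    (hinf : ∀ S : Set (Place k G), S.Finite → ∃ w : Place K F', (r' w).restrict G ∉ S) :
    ∃ r : Place K F → Place k G, (∀ w : Place K F', (r' w).restrict G = r (w.restrict F)) ∧
      ∀ p ∈ I, ∀ D : Divisor K F, (∀ v, D v = v.ord p.1) →
        ∀ Q, Finsupp.mapDomain r D Q = Q.ord p.2 := by
  classical
  have hd' : (0 : ℤ) < (d : ℤ) := by exact_mod_cast hd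
  -- (D) `ρ` of a principal divisor is divisible by `d`
  have hprin : ∀ D ∈ Divisor.principal (K := K) (F := F), ∀ Q, (d : ℤ) ∣ rho (G := G) r' D Q := by
    intro D hD
    have hD' := hgen hD
    clear hD
    induction hD' using AddSubgroup.closure_induction with
    | mem E hE =>
      obtain ⟨p, hp, hEp⟩ := hE
      intro Q
      rw [rho_eq_of_pair hfibG hsumG (hI p hp) hEp Q]
      exact dvd_mul_right _ _
    | zero => intro Q; rw [map_zero]; exact dvd_zero _
    | add E E' _ _ hE hE' =>
      intro Q
      rw [map_add, Finsupp.add_apply]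
      exact dvd_add (hE Q) (hE' Q)
    | neg E _ hE =>
      intro Q
      rw [map_neg, Finsupp.neg_apply]
      exact (dvd_neg).mpr (hE Q)
  -- (E) the same for degree-zero divisors
  have hdeg0 : ∀ D ∈ Divisor.degZero (K := K) (F := F), ∀ Q, (d : ℤ) ∣ rho (G := G) r' D Q := by
    intro D hD Q
    obtain ⟨z, hz⟩ := hdiv (Pic0.mk ⟨D, hD⟩)
    obtain ⟨E, rfl⟩ := Pic0.mk_surjective z
    have hmem : ((⟨D, hD⟩ : Divisor.degZero (K := K) (F := F)) - d • E :
        Divisor.degZero (K := K) (F := F)) ∈
          (Divisor.principal (K := K) (F := F)).addSubgroupOf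
            (Divisor.degZero (K := K) (F := F)) := by
      rw [← QuotientAddGroup.eq_iff_sub_mem, QuotientAddGroup.mk_nsmul]
      exact hz.symm
    rw [AddSubgroup.mem_addSubgroupOf, AddSubgroupClass.coe_sub, AddSubgroupClass.coe_nsmul] at hmem
    have h0 := hprin _ hmem Q
    rw [map_sub, map_nsmul, Finsupp.sub_apply, Finsupp.smul_apply, nsmul_eq_mul] at h0
    have h1 : (d : ℤ) ∣ (d : ℤ) * rho (G := G) r' (E : Divisor K F) Q := dvd_mul_right _ _
    have := dvd_add h0 h1
    rwa [sub_add_cancel] at this
  -- the family `ρ [v]`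
  set ρ : Place K F → Divisor k G := fun v => rho (G := G) r' (Finsupp.single v 1) with hρ
  have hnn : ∀ v Q, 0 ≤ ρ v Q := fun v Q => rho_single_one_nonneg r' v Q
  have hmass : ∀ v, mass (ρ v) = (d : ℤ) := fun v => by
    rw [hρ]; dsimp only; rw [mass_rho_single_one, hsumF]
  have hcong : ∀ v v₀ Q, (d : ℤ) ∣ ρ v Q - ρ v₀ Q := by
    intro v v₀ Q
    have hmem : Finsupp.single v (1 : ℤ) - Finsupp.single v₀ 1 ∈
        Divisor.degZero (K := K) (F := F) := by
      rw [Divisor.mem_degZero, map_sub, Divisor.degree_single, Divisor.degree_single, hdeg, hdeg,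
        sub_self]
    have := hdeg0 _ hmem Q
    rwa [map_sub, Finsupp.sub_apply] at this
  rcases single_or_const hd' ρ hnn hmass hcong with hsingle | ⟨c, hc⟩
  swap
  · -- constant case: contradiction with `hinf`
    exfalso
    obtain ⟨w, hw⟩ := hinf (c.support : Set (Place k G)) c.support.finite_toSet
    apply hw
    have hpos := rho_single_one_pos (F := F) (G := G) r' w
    have : ρ (w.restrict F) = c := hc (w.restrict F)
    rw [hρ] at this
    dsimp only at this
    rw [this] at hpos
    simp only [Finset.mem_coe, Finsupp.mem_support_iff]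
    exact hpos.ne'
  choose r hr using hsingle
  refine ⟨r, ?_, ?_⟩
  · intro w
    have hpos := rho_single_one_pos (F := F) (G := G) r' w
    have : ρ (w.restrict F) = Finsupp.single (r (w.restrict F)) (d : ℤ) := hr (w.restrict F)
    rw [hρ] at this
    dsimp only at this
    rw [this, Finsupp.single_apply] at hpos
    by_contra hne
    rw [if_neg (fun h => hne h.symm)] at hpos
    exact lt_irrefl _ hpos
  · -- `ρ = d • r_*`
    have hrho : ∀ D : Divisor K F, rho (G := G) r' D = (d : ℤ) • Finsupp.mapDomain r D := by
      intro D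
      induction D using Finsupp.induction_linear with
      | zero => simp
      | add D E hD hE => rw [map_add, hD, hE, Finsupp.mapDomain_add, smul_add]
      | single v n =>
        have h1 : Finsupp.single v n = n • Finsupp.single v (1 : ℤ) := by
          rw [Finsupp.smul_single, smul_eq_mul, mul_one]
        have h2 : rho (G := G) r' (Finsupp.single v 1) = Finsupp.single (r v) (d : ℤ) := hr v
        rw [h1, map_zsmul, h2, Finsupp.mapDomain_smul, Finsupp.mapDomain_single,
          Finsupp.smul_single, Finsupp.smul_single, Finsupp.smul_single, smul_eq_mul, smul_eq_mul,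
          smul_eq_mul, mul_one]
        congr 1
        ring
    intro p hp D hD Q
    have h1 := rho_eq_of_pair hfibG hsumG (hI p hp) hD Q
    rw [hrho D, Finsupp.smul_apply, smul_eq_mul] at h1
    exact mul_left_cancel₀ hd'.ne' h1

end Main

end Fermat.Agent.MAZ.G0Red56.Descent
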