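/-
Programme MAZ, brick F-G0 (helper56): **the fundamental identity `∑_{w ∣ v} e(w) = [F' : F]` for a
finite SEPARABLE extension of function fields** over a field `K` all of whose places have residue
field `K` (any characteristic).  Adaptation of `ES/HECKE/FundIdentity19.sum_ramificationIndex`
(which assumes `CharZero K` only to get separability), without `HasPrincipalDivisors`: the
finiteness of the fibre is part of the conclusion.
-/
import Mathlib
import Fermat.Agent.ES.HECKE.FundIdentity19

set_option autoImplicit false
set_option linter.style.haveILetI false
set_option linter.unusedSectionVars false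

open AlgebraicCurve IsDedekindDomain

noncomputable section

namespace Fermat.Agent.MAZ.G0Red56.FundSep

open Fermat.Agent.X0 Fermat.Agent.X0.FF Fermat.Agent.ES.HECKE.FundIdentity19

variable {K F F' : Type*} [Field K] [Field F] [Field F'] [Algebra K F] [Algebra K F']
  [Algebra F F'] [IsScalarTower K F F']

/-- **The local sum formula, separable case**: for a place `v` of `F`, the places of `F'` over `v`
are finite in number and their ramification indices sum to `[F' : F]`. -/
theorem sum_ramificationIndex_sep [FiniteDimensional F F'] [Algebra.IsSeparable F F']
    (hres : ∀ w : Place K F', ∀ f ∈ w.toValuationSubring,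
      ∃ c : K, f = algebraMap K F' c ∨ 0 < w.ord (f - algebraMap K F' c))
    (v : Place K F) :
    ∃ hfin : {w : Place K F' | w.restrict F = v}.Finite,
      ∑ w ∈ hfin.toFinset, (w.ramificationIndex F : ℤ) = (Module.finrank F F' : ℤ) := by
  classical
  -- the discrete valuation ring `A = O_v`
  let A := v.toValuationSubring
  letI : Algebra A F' := ((algebraMap F F').comp A.subtype).toAlgebra
  haveI : IsScalarTower A F F' := IsScalarTower.of_algebraMap_eq (fun _ => rfl)
  -- the integral closure `B` of `A` in `F'`
  let B := integralClosure A F'
  haveI hDedB : IsDedekindDomain B := integralClosure.isDedekindDomain A F F'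
  haveI hFracB : IsFractionRing B F' := integralClosure.isFractionRing_of_finite_extension F F'
  haveI hFinB : Module.Finite A B := IsIntegralClosure.finite A F F' B
  haveI hfaith : FaithfulSMul A B :=
    (faithfulSMul_iff_algebraMap_injective _ _).mpr (fun a b h => by
      have h1 : algebraMap A F' a = algebraMap A F' b :=
        congrArg (fun z : B => (z : F')) h
      exact Subtype.ext ((algebraMap F F').injective h1))
  letI : Algebra K B := ((algebraMap A B).comp (algebraMap K A)).toAlgebra
  haveI : IsScalarTower K A B := IsScalarTower.of_algebraMap_eq (fun _ => rfl)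
  haveI : IsScalarTower K B F' := IsScalarTower.of_algebraMap_eq (fun c => by
    show algebraMap K F' c = algebraMap F F' (algebraMap K F c)
    exact IsScalarTower.algebraMap_apply K F F' c)
  -- a uniformiser
  obtain ⟨t, ht⟩ := IsDiscreteValuationRing.exists_irreducible A
  have ht0 : t ≠ 0 := ht.ne_zero
  have hmax : (Ideal.span {t}).IsMaximal := by
    rw [← ht.maximalIdeal_eq]
    exact IsLocalRing.maximalIdeal.isMaximal A
  have key := sum_ord_of_dedekind (K := K) (F := F') (A := A) (B := B) t ht0 hmax hres
  have htF : algebraMap B F' (algebraMap A B t) = algebraMap F F' (t : F) := rfl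
  rw [htF] at key
  have hvt : v.ord (t : F) = 1 := v.ord_coe_irreducible ht
  -- `ord_w t = e(w|v)` on the fibre
  have hord : ∀ w : Place K F', w.restrict F = v →
      w.ord (algebraMap F F' (t : F)) = (w.ramificationIndex F : ℤ) := by
    intro w hw
    rw [w.ord_restrict (t : F), hw, hvt, mul_one]
  -- the index set is the fibre
  have hset : {w : Place K F' | (∀ b : B, algebraMap B F' b ∈ w.toValuationSubring) ∧
      0 < w.ord (algebraMap F F' (t : F))} = {w : Place K F' | w.restrict F = v} := by
    ext w
    rw [Set.mem_ofPred_eq, Set.mem_ofPred_eq]
    constructor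
    · rintro ⟨hB, -⟩
      apply Place.ext
      apply valuationSubring_eq_of_le v _ _ (w.restrict F).ne_top'
      intro a ha
      exact hB (algebraMap A B ⟨a, ha⟩)
    · intro hw
      refine ⟨fun b => ?_, ?_⟩
      · have hA : ∀ a : A, algebraMap A F' a ∈ w.toValuationSubring.toSubring := by
          intro a
          have ha : (a : F) ∈ (w.restrict F).toValuationSubring := by rw [hw]; exact a.2
          exact ha
        let _ : Algebra A w.toValuationSubring :=
          ((algebraMap A F').codRestrict w.toValuationSubring.toSubring hA).toAlgebra
        have : IsScalarTower A w.toValuationSubring F' :=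
          IsScalarTower.of_algebraMap_eq fun f => rfl
        have hb : IsIntegral A (algebraMap B F' b) := b.2
        have hb' : IsIntegral w.toValuationSubring (algebraMap B F' b) := hb.tower_top
        obtain ⟨z, hz⟩ := IsIntegrallyClosed.isIntegral_iff.mp hb'
        exact hz ▸ z.2
      · rw [hord w hw]
        exact_mod_cast w.ramificationIndex_pos (F := F)
  rw [hset] at key
  obtain ⟨hfin, hsum⟩ := key
  refine ⟨hfin, ?_⟩
  have hrank : Module.finrank A B = Module.finrank F F' :=
    (IsFractionRing.finrank_eq A F B F').symm
  rw [← hrank, ← hsum, finsum_mem_eq_finite_toFinset_sum _ hfin]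
  refine Finset.sum_congr rfl fun w hw => ?_
  have hw' : w.restrict F = v := by simpa using hw
  exact (hord w hw').symm

end Fermat.Agent.MAZ.G0Red56.FundSep
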